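import Fermat.Agent.SegreOval.Tangents
import Mathlib.LinearAlgebra.Matrix.DotProduct
import Mathlib.LinearAlgebra.Matrix.ToLinearEquiv

/-!
# Segre's theorem

By the lemma of tangents the tangents can be scaled so that the form of each at the other is
symmetric; such forms come from one symmetric matrix.
-/

set_option autoImplicit false

noncomputable section

namespace FA.SegreOval

open Matrix

variable {K : Type*} [Field K] {ι : Type*}

theorem eq_of_dot {a b c u w : Fin 3 → K} (hd : det3 a b c ≠ 0) (ha : u ⬝ᵥ a = w ⬝ᵥ a)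
    (hb : u ⬝ᵥ b = w ⬝ᵥ b) (hc : u ⬝ᵥ c = w ⬝ᵥ c) : u = w := by
  refine dotProduct_eq u w fun x => mul_left_cancel₀ hd ?_
  rw [dot_expand u, dot_expand w, ha, hb, hc]

theorem eq_zero_of_coords {a b c x : Fin 3 → K} (hd : det3 a b c ≠ 0) (h1 : det3 x b c = 0)
    (h2 : det3 a x c = 0) (h3 : det3 a b x = 0) : x = 0 := by
  have h := expand a b c x
  rw [h1, h2, h3, zero_smul, zero_smul, zero_smul, add_zero, add_zero] at h
  exact (smul_eq_zero.1 h).resolve_left hd

/-- The matrix with given values at a basis. -/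
def interp (a b c sa sb sc : Fin 3 → K) : Matrix (Fin 3) (Fin 3) K :=
  (det3 a b c)⁻¹ • (vecMulVec sa (b ⨯₃ c) + vecMulVec sb (c ⨯₃ a) + vecMulVec sc (a ⨯₃ b))

theorem interp_mulVec (a b c sa sb sc x : Fin 3 → K) :
    interp a b c sa sb sc *ᵥ x =
      (det3 a b c)⁻¹ • (det3 x b c • sa + det3 a x c • sb + det3 a b x • sc) := by
  rw [interp, smul_mulVec, add_mulVec, add_mulVec, vecMulVec_mulVec, vecMulVec_mulVec,
    vecMulVec_mulVec, op_smul_eq_smul, op_smul_eq_smul, op_smul_eq_smul]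
  rw [det3_cycle a x c, ← det3_cycle x a b]
  simp only [det3]
  rw [dotProduct_comm (b ⨯₃ c), dotProduct_comm (c ⨯₃ a), dotProduct_comm (a ⨯₃ b)]

theorem interp_first {a b c : Fin 3 → K} (hd : det3 a b c ≠ 0) (sa sb sc : Fin 3 → K) :
    interp a b c sa sb sc *ᵥ a = sa ∧ interp a b c sa sb sc *ᵥ b = sb ∧
      interp a b c sa sb sc *ᵥ c = sc := by
  simp [interp_mulVec, det3_self, det3_self', det3_self'', smul_smul, inv_mul_cancel₀ hd]

variable [Fintype ι] [DecidableEq ι] [Fintype K] [DecidableEq K] {v : ι → Fin 3 → K}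

/-- Tangents with symmetric values. -/
theorem exists_sym_tangents (hv : IsArc v) (hN : Fintype.card ι = Fintype.card K + 1) :
    ∃ s : ι → Fin 3 → K, (∀ i, IsTangent v i (s i)) ∧ ∀ i j, s i ⬝ᵥ v j = s j ⬝ᵥ v i := by
  choose t ht using exists_tangent hv hN
  obtain ⟨a⟩ : Nonempty ι := Fintype.card_pos_iff.1 (by omega)
  set μ : ι → K := fun i => if i = a then 1 else (t a ⬝ᵥ v i) / (t i ⬝ᵥ v a)
  have hμ : ∀ i, μ i ≠ 0 := fun i => by
    simp only [μ]
    split_ifs with h
    · exact one_ne_zero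
    · exact div_ne_zero ((ht a).2 i h) ((ht i).2 a (Ne.symm h))
  refine ⟨fun i => μ i • t i, fun i => ⟨by rw [smul_dotProduct, (ht i).1, smul_zero],
    fun j hj => by rw [smul_dotProduct]; exact mul_ne_zero (hμ i) ((ht i).2 j hj)⟩, fun i j => ?_⟩
  have ha : ∀ i, μ a • t a ⬝ᵥ v i = μ i • t i ⬝ᵥ v a := fun i => by
    rw [smul_dotProduct, smul_dotProduct, smul_eq_mul, smul_eq_mul]
    by_cases h : i = a
    · subst h; rfl
    · simp only [μ, if_true, if_neg h, one_mul]
      rw [div_mul_cancel₀ _ ((ht i).2 a (Ne.symm h))]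
  by_cases hi : i = a
  · subst hi; exact ha j
  by_cases hj : j = a
  · subst hj; exact (ha i).symm
  by_cases hij : i = j
  · subst hij; rfl
  have h := tangents_identity hv hN (Ne.symm hi) (Ne.symm hj) hij (ht a) (ht i) (ht j)
  rw [smul_dotProduct, smul_dotProduct, smul_eq_mul, smul_eq_mul]
  simp only [μ, if_neg hi, if_neg hj]
  have := (ht i).2 a (Ne.symm hi)
  have := (ht j).2 a (Ne.symm hj)
  field_simp
  linear_combination h

/-- **Segre's theorem.** -/
theorem exists_conic (hv : IsArc v) (hN : Fintype.card ι = Fintype.card K + 1) (h2 : (2 : K) ≠ 0) :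
    ∃ M : Matrix (Fin 3) (Fin 3) K, M.IsSymm ∧ IsUnit M ∧ (∀ i, v i ⬝ᵥ (M *ᵥ v i) = 0) ∧
      ∀ x, x ⬝ᵥ (M *ᵥ x) = 0 → ∃ i, ∃ c : K, x = c • v i := by
  obtain ⟨s, hs, hsym⟩ := exists_sym_tangents hv hN
  obtain ⟨i, j, k, hij, hik, hjk⟩ := Fintype.two_lt_card_iff.1
    (show 2 < Fintype.card ι by have := Fintype.one_lt_card (α := K); omega)
  set d := det3 (v i) (v j) (v k)
  have hd : d ≠ 0 := hv i j k hij hik hjk
  obtain ⟨a, ha⟩ : ∃ a, a = s i ⬝ᵥ v j := ⟨_, rfl⟩
  obtain ⟨b, hb⟩ : ∃ b, b = s i ⬝ᵥ v k := ⟨_, rfl⟩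
  obtain ⟨e, he⟩ : ∃ e, e = s j ⬝ᵥ v k := ⟨_, rfl⟩
  have ha0 : a ≠ 0 := ha ▸ (hs i).2 j hij.symm
  have hb0 : b ≠ 0 := hb ▸ (hs i).2 k hik.symm
  have he0 : e ≠ 0 := he ▸ (hs j).2 k hjk.symm
  set M := interp (v i) (v j) (v k) (s i) (s j) (s k)
  have hMs : M.IsSymm := by
    refine Matrix.IsSymm.ext_iff.2 fun p q => ?_
    have hbil : ∀ x y : Fin 3 → K, y ⬝ᵥ (M *ᵥ x) = x ⬝ᵥ (M *ᵥ y) := fun x y => by
      rw [interp_mulVec, interp_mulVec, dotProduct_smul, dotProduct_smul, smul_eq_mul, smul_eq_mul]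
      congr 1
      refine mul_left_cancel₀ hd ?_
      rw [dotProduct_comm y, dotProduct_comm x, dot_expand _ (v i) (v j) (v k) y,
        dot_expand _ (v i) (v j) (v k) x]
      simp only [add_dotProduct, smul_dotProduct, smul_eq_mul, (hs i).1, (hs j).1, (hs k).1,
        hsym j i, hsym k i, hsym k j]
      ring
    simpa [mulVec, dotProduct, Pi.single_apply] using hbil (Pi.single p 1) (Pi.single q 1)
  have hval : ∀ r, M *ᵥ v r = s r := fun r => by
    refine eq_of_dot hd ?_ ?_ ?_ <;>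
    · refine mul_left_cancel₀ hd ?_
      rw [interp_mulVec, smul_dotProduct, smul_eq_mul, ← mul_assoc, mul_inv_cancel₀ hd, one_mul]
      conv_rhs => rw [hsym r, dot_expand _ (v i) (v j) (v k) (v r)]
      simp only [add_dotProduct, smul_dotProduct, smul_eq_mul, hsym j i, hsym k i, hsym k j]
  have hcoord : ∀ x, d ^ 2 * (x ⬝ᵥ (M *ᵥ x)) =
      2 * (a * (det3 x (v j) (v k) * det3 (v i) x (v k)) +
        b * (det3 x (v j) (v k) * det3 (v i) (v j) x) +
        e * (det3 (v i) x (v k) * det3 (v i) (v j) x)) := fun x => by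
    rw [dotProduct_comm, interp_mulVec, smul_dotProduct, smul_eq_mul, pow_two, mul_assoc d d,
      ← mul_assoc d _⁻¹, mul_inv_cancel₀ hd, one_mul, dot_expand _ (v i) (v j) (v k) x]
    simp only [add_dotProduct, smul_dotProduct, smul_eq_mul, (hs i).1, (hs j).1, (hs k).1,
      hsym j i, hsym k i, hsym k j, ha, hb, he]
    ring
  have hzero : ∀ r, v r ⬝ᵥ (M *ᵥ v r) = 0 := fun r => by
    rw [hval, dotProduct_comm, (hs r).1]
  refine ⟨M, hMs, ?_, hzero, fun x hx => ?_⟩
  · rw [← Matrix.mulVec_injective_iff_isUnit]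
    intro x y hxy
    rw [← sub_eq_zero]
    refine eq_zero_of_coords hd ?_ ?_ ?_ <;>
    · have hz : M *ᵥ (x - y) = 0 := by
        rw [mulVec_sub]
        exact sub_eq_zero.2 hxy
      generalize x - y = z at hz ⊢
      rw [interp_mulVec, smul_eq_zero] at hz
      have hz := hz.resolve_left (inv_ne_zero hd)
      have e1 := congrArg (· ⬝ᵥ v i) hz
      have e2 := congrArg (· ⬝ᵥ v j) hz
      have e3 := congrArg (· ⬝ᵥ v k) hz
      simp only [add_dotProduct, smul_dotProduct, smul_eq_mul, (hs i).1, (hs j).1, (hs k).1,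
        hsym j i, hsym k i, hsym k j, ← ha, ← hb, ← he, zero_dotProduct] at e1 e2 e3
      first
        | refine (mul_eq_zero.1 (?_ : 2 * a * b * det3 z (v j) (v k) = 0)).resolve_left
            (mul_ne_zero (mul_ne_zero h2 ha0) hb0)
          linear_combination b * e2 + a * e3 - e * e1
        | refine (mul_eq_zero.1 (?_ : 2 * a * e * det3 (v i) z (v k) = 0)).resolve_left
            (mul_ne_zero (mul_ne_zero h2 ha0) he0)
          linear_combination e * e1 + a * e3 - b * e2
        | refine (mul_eq_zero.1 (?_ : 2 * b * e * det3 (v i) (v j) z = 0)).resolve_left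
            (mul_ne_zero (mul_ne_zero h2 hb0) he0)
          linear_combination e * e1 + b * e2 - a * e3
  have h := hcoord x
  rw [hx, mul_zero, eq_comm, mul_eq_zero] at h
  have h := h.resolve_left h2
  have hex := expand (v i) (v j) (v k) x
  obtain ⟨p, hp⟩ : ∃ p, p = det3 x (v j) (v k) := ⟨_, rfl⟩
  obtain ⟨y, hy⟩ : ∃ y, y = det3 (v i) x (v k) := ⟨_, rfl⟩
  obtain ⟨z, hz⟩ : ∃ z, z = det3 (v i) (v j) x := ⟨_, rfl⟩
  rw [← hp, ← hy, ← hz] at h hex
  have hx' : x = d⁻¹ • (p • v i + y • v j + z • v k) := by rw [← hex, inv_smul_smul₀ hd]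
  have onlyi : y = 0 → z = 0 → ∃ i, ∃ c : K, x = c • v i := fun h1 h2' =>
    ⟨i, d⁻¹ * p, by rw [hx', h1, h2']; simp [smul_smul]⟩
  by_cases htan : y * a + z * b = 0
  · have : y * z = 0 := (mul_eq_zero.1 (show e * (y * z) = 0 by linear_combination h - p * htan))
      |>.resolve_left he0
    rcases mul_eq_zero.1 this with h1 | h1
    · exact onlyi h1 ((mul_eq_zero.1 (by simpa [h1] using htan)).resolve_right hb0)
    · exact onlyi ((mul_eq_zero.1 (by simpa [h1] using htan)).resolve_right ha0) h1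
  by_cases hz0 : z = 0
  · have : p * y = 0 := (mul_eq_zero.1 (show a * (p * y) = 0 by
      rw [hz0] at h; linear_combination h)).resolve_left ha0
    rcases mul_eq_zero.1 this with h1 | h1
    · exact ⟨j, d⁻¹ * y, by rw [hx', h1, hz0]; simp [smul_smul]⟩
    · exact onlyi h1 hz0
  by_cases hy0 : y = 0
  · have : p * z = 0 := (mul_eq_zero.1 (show b * (p * z) = 0 by
      rw [hy0] at h; linear_combination h)).resolve_left hb0
    rcases mul_eq_zero.1 this with h1 | h1
    · exact ⟨k, d⁻¹ * z, by rw [hx', h1, hy0]; simp [smul_smul]⟩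
    · exact onlyi hy0 h1
  have hc : y / z ∈ (Finset.univ.erase (0 : K)).erase (-b / a) := Finset.mem_erase.2
    ⟨fun h' => htan (by rw [div_eq_div_iff hz0 ha0] at h'; linear_combination h'),
      Finset.mem_erase.2 ⟨div_ne_zero hy0 hz0, Finset.mem_univ _⟩⟩
  have hmem : y / z ∈ ratios v i j k := by
    by_contra hn
    have hsub : ratios v i j k ⊆ ((Finset.univ.erase (0 : K)).erase (-b / a)).erase (y / z) := by
      intro r hr
      refine Finset.mem_erase.2 ⟨fun h' => hn (h' ▸ hr), Finset.mem_erase.2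
        ⟨fun h' => ?_, ratios_subset hv hij hik hjk hr⟩⟩
      obtain ⟨l, hl, rfl⟩ := Finset.mem_image.1 hr
      obtain ⟨-, -, h3⟩ := others_ne_zero hv hij hik hjk hl
      have hl' : l ≠ i := by simp only [others, Finset.mem_filter] at hl; exact hl.2.1
      rw [ratio, div_eq_div_iff h3 ha0] at h'
      refine mul_ne_zero hd ((hs i).2 l hl') ?_
      rw [dot_expand _ (v i) (v j) (v k), (hs i).1, ← ha, ← hb]
      linear_combination h'
    have h1 := Finset.card_le_card hsub
    have h3 := card_ratios hv hij hik hjk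
    rw [Finset.card_erase_of_mem hc, Finset.card_erase_of_mem (Finset.mem_erase.2
      ⟨div_ne_zero (neg_ne_zero.2 hb0) ha0, Finset.mem_univ _⟩),
      Finset.card_erase_of_mem (Finset.mem_univ _), Finset.card_univ] at h1
    have hpos := Finset.card_pos.2 ⟨_, hc⟩
    rw [Finset.card_erase_of_mem (Finset.mem_erase.2
      ⟨div_ne_zero (neg_ne_zero.2 hb0) ha0, Finset.mem_univ _⟩),
      Finset.card_erase_of_mem (Finset.mem_univ _), Finset.card_univ] at hpos
    omega
  obtain ⟨l, hl, hr⟩ := Finset.mem_image.1 hmem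
  obtain ⟨hp', hy', hz'⟩ := others_ne_zero hv hij hik hjk hl
  have hl0 := hcoord (v l)
  rw [hzero, mul_zero, eq_comm, mul_eq_zero] at hl0
  have hl0 := hl0.resolve_left h2
  rw [ratio, div_eq_div_iff hz' hz0] at hr
  obtain ⟨p', hp''⟩ : ∃ p', p' = det3 (v l) (v j) (v k) := ⟨_, rfl⟩
  obtain ⟨y', hy''⟩ : ∃ y', y' = det3 (v i) (v l) (v k) := ⟨_, rfl⟩
  obtain ⟨z', hz''⟩ : ∃ z', z' = det3 (v i) (v j) (v l) := ⟨_, rfl⟩
  have hlx := expand (v i) (v j) (v k) (v l)
  rw [← hp'', ← hy'', ← hz''] at hl0 hlx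
  rw [← hy'', ← hz''] at hr
  rw [← hz''] at hz'
  refine ⟨l, z / z', smul_right_injective _ hd (?_ : d • x = d • ((z / z') • v l))⟩
  rw [hex, smul_comm d, hlx, smul_add, smul_add, smul_smul, smul_smul, smul_smul]
  congr 1
  · congr 1
    · congr 1
      rw [div_mul_eq_mul_div, eq_div_iff hz']
      refine mul_left_cancel₀ (show y * a + z * b ≠ 0 from htan) ?_
      have hl1 : p' * (a * y + b * z) + e * (y * z') = 0 := mul_left_cancel₀ hz' (by
        linear_combination z * hl0 - (a * p' + e * z') * hr)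
      linear_combination z' * h - z * hl1
    · congr 1
      rw [div_mul_eq_mul_div, eq_div_iff hz']
      linear_combination -hr
  · rw [div_mul_cancel₀ _ hz']

end FA.SegreOval
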