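import Mathlib.FieldTheory.Finite.Basic
import Mathlib.LinearAlgebra.CrossProduct

/-!
# Segre's lemma of tangents

For three points of an arc the lines joining each to the other points have ratios of coordinates
whose product over all three is one, while the product of all nonzero elements is minus one.
-/

set_option autoImplicit false

noncomputable section

namespace FA.SegreOval

open Matrix

variable {K : Type*} [Field K] {ι : Type*}

/-- The determinant of three vectors. -/
def det3 (x y z : Fin 3 → K) : K := x ⬝ᵥ (y ⨯₃ z)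

/-- No three points on a line. -/
def IsArc (v : ι → Fin 3 → K) : Prop :=
  ∀ i j k, i ≠ j → i ≠ k → j ≠ k → det3 (v i) (v j) (v k) ≠ 0

/-- A line meeting the arc in one point. -/
def IsTangent (v : ι → Fin 3 → K) (i : ι) (t : Fin 3 → K) : Prop :=
  t ⬝ᵥ v i = 0 ∧ ∀ j, j ≠ i → t ⬝ᵥ v j ≠ 0

theorem det3_cycle (x y z : Fin 3 → K) : det3 x y z = det3 y z x :=
  triple_product_permutation x y z

theorem det3_swap (x y z : Fin 3 → K) : det3 x y z = -det3 x z y := by
  rw [det3, det3, ← cross_anticomm y z, dotProduct_neg, neg_neg]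

theorem det3_self (x y : Fin 3 → K) : det3 x x y = 0 :=
  dot_self_cross x y

theorem det3_self' (x y : Fin 3 → K) : det3 x y y = 0 := by
  rw [det3, cross_self, dotProduct_zero]

theorem det3_self'' (x y : Fin 3 → K) : det3 x y x = 0 :=
  dot_cross_self y x

/-- Cramer's rule. -/
theorem expand (a b c x : Fin 3 → K) :
    det3 a b c • x = det3 x b c • a + det3 a x c • b + det3 a b x • c := by
  ext i
  fin_cases i <;> simp [det3, dotProduct, Fin.sum_univ_three, cross_apply] <;> ring

theorem dot_expand (t a b c x : Fin 3 → K) :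
    det3 a b c * (t ⬝ᵥ x) =
      det3 x b c * (t ⬝ᵥ a) + det3 a x c * (t ⬝ᵥ b) + det3 a b x * (t ⬝ᵥ c) := by
  simpa only [dotProduct_smul, dotProduct_add, smul_eq_mul] using
    congrArg (t ⬝ᵥ ·) (expand a b c x)

theorem plucker (a b c x y : Fin 3 → K) :
    det3 a b c * det3 a x y = det3 a x c * det3 a b y - det3 a y c * det3 a b x := by
  simp [det3, dotProduct, Fin.sum_univ_three, cross_apply]
  ring

/-- The ratio of two coordinates with respect to `a`, `b`, `c`. -/
def ratio (a b c x : Fin 3 → K) : K := det3 a x c / det3 a b x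

theorem ratio_mul_cycle {a b c x : Fin 3 → K} (h1 : det3 x b c ≠ 0) (h2 : det3 a x c ≠ 0)
    (h3 : det3 a b x ≠ 0) : ratio a b c x * ratio b c a x * ratio c a b x = 1 := by
  rw [ratio, ratio, ratio, det3_cycle c x b, det3_cycle c a x, det3_cycle b c x, det3_cycle c x b,
    det3_cycle b x a, det3_cycle x a b]
  field_simp

variable [Fintype ι] [DecidableEq ι]

/-- The points other than three given ones. -/
def others (i j k : ι) : Finset ι := Finset.univ.filter fun l => l ≠ i ∧ l ≠ j ∧ l ≠ k

theorem others_cycle (i j k : ι) : others j k i = others i j k := by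
  ext l
  simp only [others, Finset.mem_filter, Finset.mem_univ, true_and]
  tauto

theorem card_others {i j k : ι} (hij : i ≠ j) (hik : i ≠ k) (hjk : j ≠ k) :
    (others i j k).card + 3 = Fintype.card ι := by
  have : others i j k = ({i, j, k} : Finset ι)ᶜ := by
    ext l
    simp [others]
  have h3 : ({i, j, k} : Finset ι).card = 3 := Finset.card_eq_three.2 ⟨i, j, k, hij, hik, hjk, rfl⟩
  rw [this, ← h3, Finset.card_compl_add_card]

variable [Fintype K] [DecidableEq K] {v : ι → Fin 3 → K}

theorem prod_nonzero : ∏ x ∈ (Finset.univ.erase (0 : K)), x = -1 := by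
  have h := congrArg Units.val (FiniteField.prod_univ_units_id_eq_neg_one (K := K))
  rw [Units.coe_prod, Units.val_neg, Units.val_one] at h
  rw [← h]
  exact Finset.prod_bij (fun x hx => Units.mk0 x (Finset.ne_of_mem_erase hx))
    (fun x _ => Finset.mem_univ _) (fun x _ y _ e => congrArg Units.val e)
    (fun u _ => ⟨u, Finset.mem_erase.2 ⟨u.ne_zero, Finset.mem_univ _⟩, Units.ext rfl⟩)
    fun x _ => rfl

omit [Fintype K] [DecidableEq K] in
theorem others_ne_zero (hv : IsArc v) {i j k l : ι} (hij : i ≠ j) (hik : i ≠ k) (hjk : j ≠ k)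
    (hl : l ∈ others i j k) :
    det3 (v l) (v j) (v k) ≠ 0 ∧ det3 (v i) (v l) (v k) ≠ 0 ∧ det3 (v i) (v j) (v l) ≠ 0 := by
  simp only [others, Finset.mem_filter, Finset.mem_univ, true_and] at hl
  exact ⟨hv l j k hl.2.1 hl.2.2 hjk, hv i l k (Ne.symm hl.1) hik hl.2.2,
    hv i j l hij (Ne.symm hl.1) (Ne.symm hl.2.1)⟩

omit [Fintype K] [DecidableEq K] in
theorem ratio_injOn (hv : IsArc v) {i j k : ι} (hij : i ≠ j) (hik : i ≠ k) (hjk : j ≠ k) :
    Set.InjOn (fun l => ratio (v i) (v j) (v k) (v l)) (others i j k : Set ι) := by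
  intro l hl m hm e
  obtain ⟨-, -, h3⟩ := others_ne_zero hv hij hik hjk hl
  obtain ⟨-, -, h3'⟩ := others_ne_zero hv hij hik hjk hm
  simp only [ratio] at e
  rw [div_eq_div_iff h3 h3'] at e
  by_contra hlm
  simp only [others, Finset.coe_filter, Finset.mem_univ, true_and] at hl hm
  have := plucker (v i) (v j) (v k) (v l) (v m)
  rw [e, sub_self] at this
  exact mul_ne_zero (hv i j k hij hik hjk) (hv i l m (Ne.symm hl.1) (Ne.symm hm.1) hlm) this

/-- The ratios as a set. -/
def ratios (v : ι → Fin 3 → K) (i j k : ι) : Finset K :=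
  (others i j k).image fun l => ratio (v i) (v j) (v k) (v l)

theorem ratios_subset (hv : IsArc v) {i j k : ι} (hij : i ≠ j) (hik : i ≠ k) (hjk : j ≠ k) :
    ratios v i j k ⊆ Finset.univ.erase 0 := by
  intro x hx
  obtain ⟨l, hl, rfl⟩ := Finset.mem_image.1 hx
  obtain ⟨-, h2, h3⟩ := others_ne_zero hv hij hik hjk hl
  exact Finset.mem_erase.2 ⟨div_ne_zero h2 h3, Finset.mem_univ _⟩

omit [Fintype K] in
theorem card_ratios (hv : IsArc v) {i j k : ι} (hij : i ≠ j) (hik : i ≠ k) (hjk : j ≠ k) :
    (ratios v i j k).card + 3 = Fintype.card ι := by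
  rw [ratios, Finset.card_image_of_injOn (ratio_injOn hv hij hik hjk), card_others hij hik hjk]

omit [Fintype K] in
theorem prod_ratios (hv : IsArc v) {i j k : ι} (hij : i ≠ j) (hik : i ≠ k) (hjk : j ≠ k) :
    (∏ x ∈ ratios v i j k, x) * (∏ x ∈ ratios v j k i, x) * ∏ x ∈ ratios v k i j, x = 1 := by
  rw [ratios, ratios, ratios, Finset.prod_image (ratio_injOn hv hij hik hjk),
    Finset.prod_image (ratio_injOn hv hjk hij.symm hik.symm),
    Finset.prod_image (ratio_injOn hv hik.symm hjk.symm hij), others_cycle j k i,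
    others_cycle i j k,
    ← Finset.prod_mul_distrib, ← Finset.prod_mul_distrib]
  refine Finset.prod_eq_one fun l hl => ?_
  obtain ⟨h1, h2, h3⟩ := others_ne_zero hv hij hik hjk hl
  exact ratio_mul_cycle h1 h2 h3

/-- **Bose's bound.** -/
theorem card_le (hv : IsArc v) (h2 : (2 : K) ≠ 0) : Fintype.card ι ≠ Fintype.card K + 2 := by
  intro hN
  obtain ⟨i, j, k, hij, hik, hjk⟩ := Fintype.two_lt_card_iff.1
    (show 2 < Fintype.card ι by have := Fintype.one_lt_card (α := K); omega)
  have hall : ∀ {i j k : ι}, i ≠ j → i ≠ k → j ≠ k → ∏ x ∈ ratios v i j k, x = -1 := by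
    intro i j k hij hik hjk
    rw [Finset.eq_of_subset_of_card_le (ratios_subset hv hij hik hjk) ?_, prod_nonzero]
    have h1 := card_ratios hv hij hik hjk
    rw [Finset.card_erase_of_mem (Finset.mem_univ _), Finset.card_univ]
    omega
  have := prod_ratios hv hij hik hjk
  rw [hall hij hik hjk, hall hjk hij.symm hik.symm, hall hik.symm hjk.symm hij] at this
  exact h2 (by linear_combination -this)

/-- The ratio missed by the secants. -/
theorem prod_ratios_tangent (hv : IsArc v) (hN : Fintype.card ι = Fintype.card K + 1) {i j k : ι}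
    (hij : i ≠ j) (hik : i ≠ k) (hjk : j ≠ k) {t : Fin 3 → K} (ht : IsTangent v i t) :
    ∏ x ∈ ratios v i j k, x = (t ⬝ᵥ v j) / (t ⬝ᵥ v k) := by
  have hj := ht.2 j hij.symm
  have hk := ht.2 k hik.symm
  set c := -(t ⬝ᵥ v k) / (t ⬝ᵥ v j) with hc
  have hc0 : c ≠ 0 := div_ne_zero (neg_ne_zero.2 hk) hj
  have hsub : ratios v i j k ⊆ (Finset.univ.erase 0).erase c := fun x hx => by
    refine Finset.mem_erase.2 ⟨fun e => ?_, ratios_subset hv hij hik hjk hx⟩
    obtain ⟨l, hl, rfl⟩ := Finset.mem_image.1 hx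
    obtain ⟨-, -, h3⟩ := others_ne_zero hv hij hik hjk hl
    have hl' : l ≠ i := by
      simp only [others, Finset.mem_filter] at hl
      exact hl.2.1
    rw [ratio, hc, div_eq_div_iff h3 hj] at e
    have h := dot_expand t (v i) (v j) (v k) (v l)
    rw [ht.1, mul_zero, zero_add, e] at h
    refine mul_ne_zero (hv i j k hij hik hjk) (ht.2 l hl') ?_
    rw [h]
    ring
  have hmem : c ∈ Finset.univ.erase (0 : K) := Finset.mem_erase.2 ⟨hc0, Finset.mem_univ _⟩
  have h1 := card_ratios hv hij hik hjk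
  rw [Finset.eq_of_subset_of_card_le hsub (by
    rw [Finset.card_erase_of_mem hmem, Finset.card_erase_of_mem (Finset.mem_univ _),
      Finset.card_univ]
    omega)]
  have h := Finset.mul_prod_erase _ (fun x : K => x) hmem
  rw [prod_nonzero] at h
  generalize (∏ x ∈ (Finset.univ.erase (0 : K)).erase c, x) = P at h ⊢
  rw [hc, div_mul_eq_mul_div, div_eq_iff hj] at h
  rw [eq_div_iff hk]
  linear_combination -h

/-- **The lemma of tangents.** -/
theorem tangents_identity (hv : IsArc v) (hN : Fintype.card ι = Fintype.card K + 1) {i j k : ι}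
    (hij : i ≠ j) (hik : i ≠ k) (hjk : j ≠ k) {ti tj tk : Fin 3 → K} (hi : IsTangent v i ti)
    (hj : IsTangent v j tj) (hk : IsTangent v k tk) :
    (ti ⬝ᵥ v j) * (tj ⬝ᵥ v k) * (tk ⬝ᵥ v i) = (ti ⬝ᵥ v k) * (tj ⬝ᵥ v i) * (tk ⬝ᵥ v j) := by
  have h := prod_ratios hv hij hik hjk
  rw [prod_ratios_tangent hv hN hij hik hjk hi,
    prod_ratios_tangent hv hN hjk hij.symm hik.symm hj,
    prod_ratios_tangent hv hN hik.symm hjk.symm hij hk] at h
  have := hi.2 k hik.symm
  have := hj.2 i hij
  have := hk.2 j hjk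
  field_simp at h
  exact h

theorem exists_tangent (hv : IsArc v) (hN : Fintype.card ι = Fintype.card K + 1) (i : ι) :
    ∃ t, IsTangent v i t := by
  have hq := Fintype.one_lt_card (α := K)
  obtain ⟨j, hj, k, hk, hjk⟩ := Finset.one_lt_card.1 (show 1 < (Finset.univ.erase i).card by
    rw [Finset.card_erase_of_mem (Finset.mem_univ _), Finset.card_univ]
    omega)
  have hij : i ≠ j := (Finset.ne_of_mem_erase hj).symm
  have hik : i ≠ k := (Finset.ne_of_mem_erase hk).symm
  obtain ⟨c, hc, hcr⟩ := Finset.exists_mem_notMem_of_card_lt_card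
    (show (ratios v i j k).card < (Finset.univ.erase (0 : K)).card by
      have := card_ratios hv hij hik hjk
      rw [Finset.card_erase_of_mem (Finset.mem_univ _), Finset.card_univ]
      omega)
  set t := v k ⨯₃ v i - c • (v i ⨯₃ v j)
  have ht : ∀ x, t ⬝ᵥ x = det3 (v i) x (v k) - c * det3 (v i) (v j) x := fun x => by
    rw [det3_cycle (v i) x (v k), ← det3_cycle x (v i) (v j), det3, det3, sub_dotProduct,
      smul_dotProduct, smul_eq_mul, dotProduct_comm x, dotProduct_comm x]
  refine ⟨t, by rw [ht, det3_self, det3_self'', mul_zero, sub_zero], fun l hli => ?_⟩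
  rw [ht]
  have hd := hv i j k hij hik hjk
  rcases eq_or_ne l j with rfl | hlj
  · simpa [det3_self'] using hd
  rcases eq_or_ne l k with rfl | hlk
  · simpa [det3_self'] using mul_ne_zero (Finset.ne_of_mem_erase hc) hd
  have hl : l ∈ others i j k := by simp [others, hli, hlj, hlk]
  obtain ⟨-, -, h3⟩ := others_ne_zero hv hij hik hjk hl
  intro e
  exact hcr (Finset.mem_image.2 ⟨l, hl, (div_eq_iff h3).2 (sub_eq_zero.1 e)⟩)

end FA.SegreOval
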